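/-
Programme MAZ (S15), brick L2-d (helper86): **Kummer classes at infinity.**

`Γ` a group acting on an abelian group `A`, `c : Γ` an involution ("complex conjugation"), `z : A` with
`n • z` fixed by `c` (e.g. `n • z = x` a rational point).  Then twice the Kummer cocycle `g ↦ g • z - z`
of `x` is, on `⟨c⟩`, the coboundary of the `n`-torsion element `t = z - c • z`.  So `2 • c_x` restricts to `0`
in `H¹(⟨c⟩, A[n])`: the local condition at infinity of report 1031 costs only the factor `2`
(like the exponent `N` of the component group at `p` in (K3)).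
-/
import Mathlib

set_option autoImplicit false

namespace Fermat.Agent.MAZ.L2_86

variable {Γ A : Type*} [Group Γ] [AddCommGroup A] [DistribMulAction Γ A]

/-- The elements of `⟨c⟩` for an involution `c`. -/
theorem eq_one_or_eq_of_mem_zpowers {c : Γ} (hc : c * c = 1) {g : Γ} (hg : g ∈ Subgroup.zpowers c) :
    g = 1 ∨ g = c := by
  obtain ⟨k, rfl⟩ := Subgroup.mem_zpowers_iff.1 hg
  have h2 : c ^ (2 : ℤ) = 1 := by
    rw [zpow_ofNat, pow_two, hc]
  rcases Int.even_or_odd' k with ⟨j, rfl | rfl⟩
  · left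
    rw [zpow_mul, h2, one_zpow]
  · right
    rw [zpow_add, zpow_mul, h2, one_zpow, one_mul, zpow_one]

/-- **(K-inf)**: twice the Kummer cocycle is a coboundary on `⟨c⟩`, with an `n`-torsion primitive. -/
theorem exists_two_nsmul_kummer_eq_coboundary (c : Γ) (hc : c * c = 1) (n : ℕ) (z : A)
    (hx : c • (n • z) = n • z) :
    ∃ t : A, n • t = 0 ∧ ∀ g ∈ Subgroup.zpowers c, (2 : ℕ) • (g • z - z) = g • t - t := by
  refine ⟨z - c • z, ?_, fun g hg => ?_⟩
  · have h1 : n • (c • z) = n • z := by rw [← smul_comm c n z, hx]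
    rw [nsmul_sub, h1, sub_self]
  · rcases eq_one_or_eq_of_mem_zpowers hc hg with rfl | rfl
    · simp
    · have h1 : g • (g • z) = z := by rw [← mul_smul, hc, one_smul]
      rw [smul_sub g z (g • z), h1, two_nsmul]
      abel

/-- Variant for any multiple: if `m • (g • z - z)`... the class of `x` itself dies after multiplying by `2`;
stated for the cocycle of `2 • z` (Kummer cocycle of `2 • x`). -/
theorem exists_kummer_two_nsmul_eq_coboundary (c : Γ) (hc : c * c = 1) (n : ℕ) (z : A)
    (hx : c • (n • z) = n • z) :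
    ∃ t : A, n • t = 0 ∧ ∀ g ∈ Subgroup.zpowers c, g • ((2 : ℕ) • z) - (2 : ℕ) • z = g • t - t := by
  obtain ⟨t, ht, h⟩ := exists_two_nsmul_kummer_eq_coboundary c hc n z hx
  refine ⟨t, ht, fun g hg => ?_⟩
  rw [← h g hg, nsmul_sub, smul_comm g (2 : ℕ) z]

end Fermat.Agent.MAZ.L2_86
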