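/-
Programme MAZ (S15), brick L2-b, consumer form in helper42's vocabulary (`MAZ/FlatCond42/ExtMod.lean`):
**`Sel(ℤ/2) = 0` at `r = 2`.**

`V` a module of order `2` (necessarily with trivial action, assumed), killed by `N`; `c : G_ℚ → V` any cochain
whose extension module `E_c = V × ℤ/N` has a finite flat model over `ℤ_(2)` (`IsFlatCochain 2 N c`), vanishing
on an inertia group over every odd prime and at complex conjugation.  Then `c = 0`.
-/
import Mathlib
import Fermat.Agent.MAZ.FlatCond42.ExtMod
import Fermat.Agent.MAZ.L2_86.BaseCase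

set_option autoImplicit false

namespace Fermat.Agent.MAZ.L2_86

open Fermat.Agent.Flat44 Fermat.Agent.MAZ.FlatCond42

/-- **Base case at `r = 2`, cochain form.** -/
theorem cochain_eq_zero_of_isFlatCochain_two {V : Type} [AddCommGroup V] [DistribMulAction GQ V]
    (N : ℕ) [NeZero N] (htriv : ∀ (σ : GQ) (v : V), σ • v = v) (hcard : Nat.card V = 2)
    (hN : ∀ y : V, N • y = 0) (c : GQ → V) (hc : IsFlatCochain 2 N c)
    (hodd : ∀ l : ℕ, l.Prime → l ≠ 2 → ∃ A : ValuationSubring Qb, A.LiesOverPrime l ∧
      ∀ σ ∈ A.inertiaSubgroupIn ℚ, c σ = 0)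
    (hreal : c complexConjugation = 0) (σ : GQ) : c σ = 0 := by
  -- the nonzero element of `V`
  obtain ⟨v₀, hv₀, huniq⟩ := (Nat.card_eq_two_iff' (0 : V)).1 hcard
  have hV : ∀ x : V, x = 0 ∨ x = v₀ := fun x => by
    by_cases hx : x = 0
    · exact Or.inl hx
    · exact Or.inr (huniq x hx)
  have hv2 : v₀ + v₀ = 0 := by
    rcases hV (v₀ + v₀) with h | h
    · exact h
    · exact absurd (left_eq_add.mp h.symm) hv₀
  -- `N ≠ 1`
  have hN1 : N ≠ 1 := by
    rintro rfl
    exact hv₀ (by simpa using hN v₀)
  have : Fact (1 < N) := ⟨lt_of_le_of_ne (Nat.one_le_iff_ne_zero.2 (NeZero.ne N)) (Ne.symm hN1)⟩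
  have hval1 : (1 : ZMod N).val = 1 := ZMod.val_one N
  -- apply the module-theoretic base case to `E_c`
  have key := act_eq_of_hasFlatModel_two (M := V × ZMod N) (act := extAct N c) hc
    ((0 : V), (1 : ZMod N)) (v₀, 0)
    (fun τ => by
      apply Prod.ext
      · show τ • v₀ + (0 : ZMod N).val • c τ = v₀
        rw [ZMod.val_zero, zero_nsmul, add_zero, htriv]
      · rfl)
    (by
      apply Prod.ext
      · exact hv2
      · exact add_zero _)
    (fun τ => by
      have h1 : extAct N c τ ((0 : V), (1 : ZMod N)) = (c τ, 1) := by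
        apply Prod.ext
        · show τ • (0 : V) + (1 : ZMod N).val • c τ = c τ
          rw [smul_zero, zero_add, hval1, one_nsmul]
        · rfl
      rw [h1]
      rcases hV (c τ) with h | h
      · left; rw [h]
      · right
        rw [h]
        apply Prod.ext
        · show v₀ = 0 + v₀
          rw [zero_add]
        · show (1 : ZMod N) = 1 + 0
          rw [add_zero])
    (fun l hl hl2 => by
      obtain ⟨A, hA, hAI⟩ := hodd l hl hl2
      refine ⟨A, hA, fun τ hτ => ?_⟩
      apply Prod.ext
      · show τ • (0 : V) + (1 : ZMod N).val • c τ = 0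
        rw [smul_zero, zero_add, hAI τ hτ, smul_zero]
      · rfl)
    (by
      apply Prod.ext
      · show complexConjugation • (0 : V) + (1 : ZMod N).val • c complexConjugation = 0
        rw [smul_zero, zero_add, hreal, smul_zero]
      · rfl)
    σ
  have h2 := congrArg Prod.fst key
  have h3 : (extAct N c σ ((0 : V), (1 : ZMod N))).1 = c σ := by
    show σ • (0 : V) + (1 : ZMod N).val • c σ = c σ
    rw [smul_zero, zero_add, hval1, one_nsmul]
  rw [h3] at h2
  exact h2

end Fermat.Agent.MAZ.L2_86
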