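/-
Programme MAZ (S15), brick L2-b (helper86): **the global base case at `r = 2`.**

If `w : ℚ̄` has `w ^ 2 = u` a unit of `ℤ_(2)` (output of the local lemma `Local.exists_unit_kummer`), is fixed
by an inertia group at every odd prime, and is fixed by complex conjugation, then `w` is rational: the
quadratic character of `w` is trivial.  [`w ^ 2 = ± a (b/c)^2` with `a` squarefree and odd; an odd prime
`l ∣ a` ramifies in `ℚ(w)`: the inertia lift of `S13/UnramBridge` moves `w`; `a = 1` and sign `-` is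
excluded by complex conjugation.]

Together with `Local.lean` this gives `Sel2 (ℤ/2) = 0` (report 1031).
-/
import Mathlib
import Fermat.Prelude.Def_GaloisRep_ComplexConjugation
import Fermat.Agent.S13.UnramBridge
import Fermat.Agent.Flat44.Base

set_option autoImplicit false

noncomputable section

namespace Fermat.Agent.MAZ.L2_86

open Fermat.Agent.Flat44 IntermediateField

/-- An automorphism fixing `W` fixes `ℚ⟮W⟯` pointwise. -/
theorem apply_eq_of_mem_adjoin_simple (g : GQ) (W : Qb) (hg : g W = W) {x : Qb}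
    (hx : x ∈ ℚ⟮W⟯) : g x = x := by
  induction hx using IntermediateField.adjoin_induction with
  | mem y hy => rw [Set.mem_singleton_iff.1 hy, hg]
  | algebraMap y => exact g.commutes y
  | add y z _ _ hy hz => rw [map_add, hy, hz]
  | inv y _ hy => rw [map_inv₀, hy]
  | mul y z _ _ hy hz => rw [map_mul, hy, hz]

/-- Two automorphisms agreeing on `W` agree on `ℚ⟮W⟯`. -/
theorem apply_eq_apply_of_mem_adjoin_simple (g g' : GQ) (W : Qb) (hg : g W = g' W) {x : Qb}
    (hx : x ∈ ℚ⟮W⟯) : g x = g' x := by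
  have h1 : (g'⁻¹ * g) W = W := by
    rw [AlgEquiv.mul_apply, hg]
    exact g'.symm_apply_apply W
  have h2 := apply_eq_of_mem_adjoin_simple (g'⁻¹ * g) W h1 hx
  rw [AlgEquiv.mul_apply] at h2
  have h3 := congrArg g' h2
  rwa [show g' (g'⁻¹ (g x)) = g x from g'.apply_symm_apply (g x)] at h3

/-- `ℚ⟮-W⟯ = ℚ⟮W⟯`. -/
theorem adjoin_simple_neg (W : Qb) : ℚ⟮-W⟯ = ℚ⟮W⟯ := by
  apply le_antisymm
  · exact adjoin_simple_le_iff.2 (neg_mem (mem_adjoin_simple_self ℚ W))
  · refine adjoin_simple_le_iff.2 ?_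
    have := neg_mem (mem_adjoin_simple_self ℚ (-W))
    rwa [neg_neg] at this

/-- **Ramification of `ℚ(√d)` at a prime `l ∥ d`**: if `W ^ 2 = d`, `l ∣ d`, `l ^ 2 ∤ d` and some
automorphism negates `W`, then for every valuation subring `A` of `ℚ̄` over `l` some element of the inertia
group of `A` negates `W`. -/
theorem exists_inertia_neg (W : Qb) (d : ℤ) (hW : W ^ 2 = (d : Qb)) (l : ℕ) (hl : l.Prime)
    (hld : (l : ℤ) ∣ d) (hl2 : ¬ ((l : ℤ) ^ 2 ∣ d)) (A : ValuationSubring Qb)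
    (hA : A.LiesOverPrime l) (σ₁ : GQ) (hσ₁ : σ₁ W = -W) :
    ∃ σ ∈ A.inertiaSubgroupIn ℚ, σ W = -W := by
  have hGal := isGalois_Qb
  have hd0 : d ≠ 0 := by
    rintro rfl
    exact hl2 (dvd_zero _)
  have hdQ : (d : Qb) ≠ 0 := by exact_mod_cast hd0
  have hW0 : W ≠ 0 := by
    rintro rfl
    rw [zero_pow two_ne_zero] at hW
    exact hdQ hW.symm
  set K : IntermediateField ℚ Qb := ℚ⟮W⟯ with hK
  have hWK : W ∈ K := mem_adjoin_simple_self ℚ W
  have hmap : K.map (σ₁ : Qb →ₐ[ℚ] Qb) = K := by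
    rw [hK, adjoin_map, Set.image_singleton]
    show ℚ⟮σ₁ W⟯ = ℚ⟮W⟯
    rw [hσ₁, adjoin_simple_neg]
  let τ : K ≃ₐ[ℚ] K := (intermediateFieldMap σ₁ K).trans (equivOfEq hmap)
  have hτ_coe : ∀ x : K, ((τ x : K) : Qb) = σ₁ (x : Qb) := fun x => rfl
  -- every `σ` sends `W` to `± W`
  have hpm : ∀ σ : GQ, σ W = W ∨ σ W = -W := by
    intro σ
    apply sq_eq_sq_iff_eq_or_eq_neg.1
    rw [← map_pow, hW, map_intCast]
  have hσ₁σ₁ : ∀ X ∈ K, σ₁ (σ₁ X) = X := by
    intro X hX
    have h1 : (σ₁ * σ₁) W = W := by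
      rw [AlgEquiv.mul_apply, hσ₁, map_neg, hσ₁, neg_neg]
    exact apply_eq_of_mem_adjoin_simple (σ₁ * σ₁) W h1 hX
  have hτ : ∀ x : K, IsIntegral ℤ x → (((τ x : K) : Qb) - x) ∈ A.nonunits := by
    intro x hx
    rw [hτ_coe]
    set X : Qb := (x : Qb) with hX
    have hXK : X ∈ K := x.2
    have hXint : IsIntegral ℤ X := map_isIntegral_int (algebraMap K Qb) hx
    have hσXK : σ₁ X ∈ K := by
      rw [← hτ_coe]; exact (τ x).2
    set y : Qb := σ₁ X - X with hy
    have hyK : y ∈ K := K.sub_mem hσXK hXK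
    have hσy : σ₁ y = -y := by
      rw [hy, map_sub, hσ₁σ₁ X hXK]; ring
    have hyint : IsIntegral ℤ y := (map_isIntegral_int σ₁ hXint).sub hXint
    -- `y * W` is rational
    have hzfix : ∀ σ : GQ, σ (y * W) = y * W := by
      intro σ
      have hzK : y * W ∈ K := K.mul_mem hyK hWK
      rcases hpm σ with h | h
      · exact apply_eq_of_mem_adjoin_simple σ W h hzK
      · rw [apply_eq_apply_of_mem_adjoin_simple σ σ₁ W (h.trans hσ₁.symm) hzK, map_mul, hσy, hσ₁]
        ring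
    obtain ⟨ρ, hρ⟩ := (InfiniteGalois.mem_range_algebraMap_iff_fixed (k := ℚ) (K := Qb) _).mpr hzfix
    -- `y ^ 2 = ρ ^ 2 / d`
    have hy2 : algebraMap ℚ Qb (ρ ^ 2 / d) = y ^ 2 := by
      rw [map_div₀, map_pow, hρ, map_intCast, mul_pow, hW]
      field_simp
    have hint2 : IsIntegral ℤ (ρ ^ 2 / (d : ℚ)) := by
      rw [← isIntegral_algebraMap_iff (algebraMap ℚ Qb).injective, hy2]
      exact hyint.pow 2
    obtain ⟨k, hk⟩ := IsIntegrallyClosed.isIntegral_iff.1 hint2
    have hdq : (d : ℚ) ≠ 0 := by exact_mod_cast hd0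
    have hρ2 : ρ ^ 2 = (d : ℚ) * k := by
      have : (k : ℚ) = ρ ^ 2 / d := hk
      rw [this]; field_simp
    have hρint : IsIntegral ℤ ρ := by
      apply IsIntegral.of_pow (n := 2) (by norm_num)
      rw [hρ2]
      have : ((d : ℚ) * k) = algebraMap ℤ ℚ (d * k) := by simp
      rw [this]
      exact isIntegral_algebraMap
    obtain ⟨m, hm⟩ := IsIntegrallyClosed.isIntegral_iff.1 hρint
    have hm2 : m ^ 2 = d * k := by
      have : ((m ^ 2 : ℤ) : ℚ) = ((d * k : ℤ) : ℚ) := by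
        push_cast
        rw [← hρ2, ← hm]; simp
      exact_mod_cast this
    -- `l ∣ k`
    have hlp : Prime (l : ℤ) := Nat.prime_iff_prime_int.mp hl
    have hlk : (l : ℤ) ∣ k := by
      obtain ⟨d', hd'⟩ := hld
      have hlm : (l : ℤ) ∣ m := by
        apply hlp.dvd_of_dvd_pow (n := 2)
        rw [hm2, hd']
        exact Dvd.intro _ (mul_assoc _ _ _).symm
      obtain ⟨m', hm'⟩ := hlm
      have hld' : ¬ (l : ℤ) ∣ d' := by
        rintro ⟨e, he⟩
        apply hl2
        rw [hd', he]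
        exact ⟨e, by ring⟩
      have h1 : (l : ℤ) * (l * m' ^ 2) = l * (d' * k) := by
        rw [← mul_assoc (l : ℤ) d' k, ← hd', ← hm2, hm']; ring
      have h2 : (l : ℤ) * m' ^ 2 = d' * k := mul_left_cancel₀ hlp.ne_zero h1
      have h3 : (l : ℤ) ∣ d' * k := ⟨m' ^ 2, h2.symm⟩
      exact (hlp.dvd_or_dvd h3).resolve_left hld'
    obtain ⟨k', hk'⟩ := hlk
    -- valuations
    have hyk : y ^ 2 = ((l : ℕ) : Qb) * ((k' : ℤ) : Qb) := by
      rw [← hy2, ← hk, hk']
      simp
    rw [A.mem_nonunits_iff]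
    have hvl : A.valuation ((l : ℕ) : Qb) < 1 := (A.mem_nonunits_iff).1 hA
    have hvk : A.valuation ((k' : ℤ) : Qb) ≤ 1 := (A.valuation_le_one_iff _).2 (intCast_mem A k')
    have hv2 : A.valuation y ^ 2 < 1 := by
      rw [← map_pow, hyk, map_mul]
      exact mul_lt_one_of_lt_of_le hvl hvk
    by_contra hcon
    push Not at hcon
    exact absurd hv2 (not_lt.2 (one_le_pow_of_one_le' hcon 2))
  obtain ⟨σ, hσI, hσK⟩ := Fermat.Agent.S13.UnramBridge.exists_inertia_lift K A hl hA τ hτ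
  refine ⟨σ, hσI, ?_⟩
  have := hσK ⟨W, hWK⟩
  rw [hτ_coe] at this
  exact this.trans hσ₁

/-- Nothing in `ℚ̄` fixed by complex conjugation has square `-1`. -/
theorem sq_ne_neg_one_of_real (W : Qb) (hreal : complexConjugation W = W) : W ^ 2 ≠ -1 := by
  intro h
  have h1 := complexEmbedding_complexConjugation W
  rw [hreal] at h1
  obtain ⟨r, hr⟩ := Complex.conj_eq_iff_real.1 h1.symm
  have h2 := congrArg complexEmbedding h
  rw [map_pow, hr, map_neg, map_one] at h2
  have h3 : (r ^ 2 : ℝ) = -1 := by exact_mod_cast h2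
  nlinarith [sq_nonneg r]

/-- **The global base case at `r = 2`** (see the header). -/
theorem apply_eq_of_sq_unit (w : Qb) (u : (Zp 2)ˣ) (hu : algebraMap (Zp 2) Qb u = w ^ 2)
    (hodd : ∀ l : ℕ, l.Prime → l ≠ 2 → ∃ A : ValuationSubring Qb, A.LiesOverPrime l ∧
      ∀ σ ∈ A.inertiaSubgroupIn ℚ, σ w = w)
    (hreal : complexConjugation w = w) (σ : GQ) : σ w = w := by
  by_contra hσ
  -- the rational number `q = w ^ 2` and its inverse
  set q : ℚ := ((u : Zp 2) : ℚ) with hq
  set q' : ℚ := (((u⁻¹ : (Zp 2)ˣ) : Zp 2) : ℚ) with hq'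
  have hqw : algebraMap ℚ Qb q = w ^ 2 := by
    rw [← hu, IsScalarTower.algebraMap_apply (Zp 2) ℚ Qb]; rfl
  have hqq' : q * q' = 1 := by
    have : (u : Zp 2) * ((u⁻¹ : (Zp 2)ˣ) : Zp 2) = 1 := Units.mul_inv u
    have h2 := congrArg (Subtype.val : Zp 2 → ℚ) this
    exact h2
  have hden : q.den.Coprime 2 := (u : Zp 2).2
  have hden' : q'.den.Coprime 2 := ((u⁻¹ : (Zp 2)ˣ) : Zp 2).2
  have hq0 : q ≠ 0 := left_ne_zero_of_mul_eq_one hqq'
  have hnum : ¬ (2 : ℤ) ∣ q.num := by
    intro h2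
    have h1 : q.num * q'.num = (q.den : ℤ) * q'.den := by
      have hA : (q.num : ℚ) / q.den * ((q'.num : ℚ) / q'.den) = 1 := by
        rw [Rat.num_div_den, Rat.num_div_den, hqq']
      have hd1 : (q.den : ℚ) ≠ 0 := by exact_mod_cast q.den_nz
      have hd2 : (q'.den : ℚ) ≠ 0 := by exact_mod_cast q'.den_nz
      have hB : (q.num : ℚ) * q'.num = q.den * q'.den := by
        field_simp at hA
        linarith
      exact_mod_cast hB
    have h3 : (2 : ℤ) ∣ (q.den : ℤ) * q'.den := h1 ▸ Dvd.dvd.mul_right h2 _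
    have h4 : (2 : ℕ) ∣ q.den * q'.den := by exact_mod_cast h3
    rcases (Nat.Prime.dvd_mul Nat.prime_two).1 h4 with h | h
    · exact Nat.Prime.not_coprime_iff_dvd.2 ⟨2, Nat.prime_two, h, dvd_refl 2⟩ hden
    · exact Nat.Prime.not_coprime_iff_dvd.2 ⟨2, Nat.prime_two, h, dvd_refl 2⟩ hden'
  set N : ℤ := q.num * q.den with hN
  have hN0 : N ≠ 0 := mul_ne_zero (Rat.num_ne_zero.2 hq0) (by exact_mod_cast q.den_nz)
  have hN2 : ¬ (2 : ℤ) ∣ N := by
    intro h
    rcases (Int.prime_two.dvd_or_dvd h) with h | h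
    · exact hnum h
    · have h4 : (2 : ℕ) ∣ q.den := by exact_mod_cast h
      exact Nat.Prime.not_coprime_iff_dvd.2 ⟨2, Nat.prime_two, h4, dvd_refl 2⟩ hden
  -- squarefree part
  obtain ⟨a, b, hab, ha⟩ := Nat.sq_mul_squarefree N.natAbs
  have hNabs : N.natAbs ≠ 0 := Int.natAbs_ne_zero.2 hN0
  have hb0 : b ≠ 0 := by
    rintro rfl
    rw [zero_pow two_ne_zero, zero_mul] at hab
    exact hNabs hab.symm
  have ha0 : a ≠ 0 := by
    rintro rfl
    rw [mul_zero] at hab
    exact hNabs hab.symm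
  have hNsign : N = N.sign * ((b : ℤ) ^ 2 * a) := by
    have h1 : ((b ^ 2 * a : ℕ) : ℤ) = (N.natAbs : ℤ) := by rw [hab]
    rw [Nat.cast_mul, Nat.cast_pow] at h1
    rw [h1]
    exact (Int.sign_mul_natAbs N).symm
  set d : ℤ := N.sign * a with hd
  have hdq : (d : Qb) ≠ 0 := by
    have : d ≠ 0 := mul_ne_zero (Int.sign_eq_zero_iff_zero.not.2 hN0) (by exact_mod_cast ha0)
    exact_mod_cast this
  -- the normalised square root `W`
  have hbQ : (b : Qb) ≠ 0 := by exact_mod_cast hb0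
  have hdenQ : (q.den : Qb) ≠ 0 := by exact_mod_cast q.den_nz
  set W : Qb := w * q.den / b with hW
  have hW2 : W ^ 2 = (d : Qb) := by
    have h1 : w ^ 2 * (q.den : Qb) = (q.num : Qb) := by
      rw [← hqw]
      have := congrArg (algebraMap ℚ Qb) (Rat.mul_den_eq_num q)
      rw [map_mul, map_natCast, map_intCast] at this
      exact this
    have h2 : (N : Qb) = (N.sign : Qb) * ((b : Qb) ^ 2 * a) := by
      have := congrArg (Int.cast : ℤ → Qb) hNsign
      push_cast at this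
      exact this
    have h3 : (N : Qb) = w ^ 2 * (q.den : Qb) ^ 2 := by
      rw [hN]; push_cast; rw [← h1]; ring
    rw [hW, div_pow, mul_pow, ← h3, h2, hd]
    push_cast
    field_simp
  have hwW : ∀ g : GQ, g W = W ↔ g w = w := by
    intro g
    rw [hW, map_div₀, map_mul, map_natCast, map_natCast]
    constructor
    · intro h
      have h1 : g w * (q.den : Qb) = w * q.den := by
        have h2 := congrArg (· * (b : Qb)) h
        simpa [div_mul_cancel₀ _ hbQ] using h2
      exact mul_right_cancel₀ hdenQ h1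
    · intro h; rw [h]
  have hW0 : W ≠ 0 := by
    rintro h
    rw [h, zero_pow two_ne_zero] at hW2
    exact hdq hW2.symm
  have hσW : σ W = -W := by
    have h1 : σ W = W ∨ σ W = -W := by
      apply sq_eq_sq_iff_eq_or_eq_neg.1
      rw [← map_pow, hW2, map_intCast]
    exact h1.resolve_left fun h => hσ ((hwW σ).1 h)
  have hneg : ∀ g : GQ, g w = w → g W ≠ -W := by
    intro g hg h
    rw [(hwW g).2 hg] at h
    have : (2 : Qb) * W = 0 := by linear_combination h
    rcases mul_eq_zero.1 this with h2 | h2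
    · exact two_ne_zero h2
    · exact hW0 h2
  by_cases ha1 : a = 1
  · -- `d = ± 1`
    rcases lt_or_gt_of_ne hN0 with hneg' | hpos
    · have : d = -1 := by rw [hd, Int.sign_eq_neg_one_of_neg hneg', ha1]; norm_num
      rw [this] at hW2
      refine sq_ne_neg_one_of_real W ((hwW _).2 hreal) ?_
      rw [hW2]; norm_num
    · have : d = 1 := by rw [hd, Int.sign_eq_one_of_pos hpos, ha1]; norm_num
      rw [this] at hW2
      have h1 : W = 1 ∨ W = -1 := by
        apply sq_eq_sq_iff_eq_or_eq_neg.1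
        rw [hW2]; norm_num
      rcases h1 with h1 | h1
      · rw [h1, map_one] at hσW
        have : (2 : Qb) = 0 := by linear_combination hσW
        exact two_ne_zero this
      · rw [h1, map_neg, map_one] at hσW
        have : (2 : Qb) = 0 := by linear_combination -hσW
        exact two_ne_zero this
  · -- an odd prime `l ∥ d`
    obtain ⟨l, hl, hla⟩ := Nat.exists_prime_and_dvd ha1
    have hlN : (l : ℤ) ∣ N := by
      rw [hNsign]
      exact Dvd.dvd.mul_left (Dvd.dvd.mul_left (by exact_mod_cast hla) _) _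
    have hl2 : l ≠ 2 := by
      rintro rfl
      exact hN2 (by exact_mod_cast hlN)
    have hld : (l : ℤ) ∣ d := Dvd.dvd.mul_left (by exact_mod_cast hla) _
    have hlsq : ¬ ((l : ℤ) ^ 2 ∣ d) := by
      intro h
      have h1 : ((l ^ 2 : ℕ) : ℤ) ∣ (a : ℤ) := by
        have h2 : (l : ℤ) ^ 2 ∣ d.natAbs := by
          rw [Int.dvd_natAbs]; exact h
        have h3 : d.natAbs = a := by
          rw [hd, Int.natAbs_mul, Int.natAbs_sign_of_ne_zero hN0, one_mul, Int.natAbs_natCast]
        rw [h3] at h2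
        exact_mod_cast h2
      have h4 : l ^ 2 ∣ a := by exact_mod_cast h1
      rw [pow_two] at h4
      exact hl.not_isUnit (ha l h4)
    obtain ⟨A, hA, hAI⟩ := hodd l hl hl2
    obtain ⟨σ', hσ'I, hσ'W⟩ := exists_inertia_neg W d hW2 l hl hld hlsq A hA σ hσW
    exact hneg σ' (hAI σ' hσ'I) hσ'W

end Fermat.Agent.MAZ.L2_86
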