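/-
Programme MAZ (S15), brick L2-a (helper86): **the local lemma at `2`** (valid at every `p`).

Let `F : FunOrder p M act` be a function order (= finite flat group scheme over `ℤ_(p)` with generic
fibre the Galois module `M`, see `Flat44`), and `s v : M` with `v` Galois-fixed, `v + v = 0` and
`act σ s ∈ {s, s + v}` for all `σ`.  Then the character "`σ` moves `s`" is the Kummer character of a
`p`-adic UNIT: there is `w : ℚ̄` with `w ^ 2 ∈ ℤ_(p)ˣ`, `σ w = w` if `act σ s = s` and `σ w = -w` otherwise.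

Application (`p = 2`): `M = E_c` the extension module of a class `c ∈ H¹(ℚ, ℤ/2)`, `v` the generator of
`ℤ/2`, `s` the section: if `E_c` has a finite flat model over `ℤ_(2)` then `c` is the class of `ℚ(√u)`
with `u` ODD.  No classification of group schemes of order `2` is used: the coset `s + ⟨v⟩` is a torsor
under the closure of `⟨v⟩`, and the proof is the computation of its "different".
-/
import Mathlib
import Fermat.Agent.Flat44.FunOrder

set_option autoImplicit false

noncomputable section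

namespace Fermat.Agent.MAZ.L2_86

open Fermat.Agent.Flat44

variable {p : ℕ} {M : Type} [AddCommGroup M] {act : GQ → M → M}

/-- Values of elements of a function order are integral over `ℤ_(p)`. -/
theorem isIntegral_apply (F : FunOrder p M act) {b : M → Qb} (hb : b ∈ F.B) (x : M) :
    IsIntegral (Zp p) (b x) := by
  have h1 : IsIntegral (Zp p) (⟨b, hb⟩ : F.B) := Algebra.IsIntegral.isIntegral _
  have h2 := h1.map ((Pi.evalAlgHom (Zp p) (fun _ : M => Qb) x).comp F.B.val)
  simpa using h2

/-- Values at Galois-fixed points lie in `ℤ_(p)`. -/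
theorem exists_eq_apply_of_fixed (F : FunOrder p M act) {b : M → Qb} (hb : b ∈ F.B) (x : M)
    (hx : ∀ σ, act σ x = x) : ∃ r : Zp p, algebraMap (Zp p) Qb r = b x :=
  mem_range_of_fixed_of_isIntegral p (b x)
    (fun σ => by rw [← F.equivariant b hb, hx]) (isIntegral_apply F hb x)

theorem map_algebraMap_Zp (σ : GQ) (r : Zp p) :
    σ (algebraMap (Zp p) Qb r) = algebraMap (Zp p) Qb r := by
  rw [IsScalarTower.algebraMap_apply (Zp p) ℚ Qb]
  exact σ.commutes _

omit [AddCommGroup M] in
theorem smul_apply_Zp (r : Zp p) (b : M → Qb) (x : M) :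
    (r • b) x = algebraMap (Zp p) Qb r * b x := by
  rw [Pi.smul_apply, Algebra.smul_def]

theorem sum_smul_mem (F : FunOrder p M act) {ι : Type} [Fintype ι] (r : ι → Zp p)
    (u : ι → M → Qb) (hu : ∀ i, u i ∈ F.B) : (∑ i, r i • u i) ∈ F.B :=
  F.B.sum_mem fun i _ => F.B.smul_mem (hu i) (r i)

omit [AddCommGroup M] in
theorem sum_smul_apply {ι : Type} [Fintype ι] (r : ι → Zp p) (u : ι → M → Qb) (x : M) :
    (∑ i, r i • u i) x = ∑ i, algebraMap (Zp p) Qb (r i) * u i x := by
  rw [Finset.sum_apply]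
  exact Finset.sum_congr rfl fun i _ => smul_apply_Zp _ _ _

/-! ### The ideal of differences `b v - b 0` -/

section Main

variable (F : FunOrder p M act) (s v : M)

/-- The ideal `{r : algebraMap r = b v - b 0 for some b ∈ B}` of `ℤ_(p)`. -/
def diffIdeal : Ideal (Zp p) where
  carrier := {r | ∃ b ∈ F.B, algebraMap (Zp p) Qb r = b v - b 0}
  add_mem' := by
    rintro r r' ⟨b, hb, h⟩ ⟨b', hb', h'⟩
    exact ⟨b + b', F.B.add_mem hb hb', by rw [map_add, h, h', Pi.add_apply, Pi.add_apply]; ring⟩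
  zero_mem' := ⟨0, F.B.zero_mem, by simp⟩
  smul_mem' := by
    rintro c r ⟨b, hb, h⟩
    refine ⟨c • b, F.B.smul_mem hb c, ?_⟩
    rw [smul_eq_mul, map_mul, h, smul_apply_Zp, smul_apply_Zp]; ring

theorem mem_diffIdeal {r : Zp p} :
    r ∈ diffIdeal F v ↔ ∃ b ∈ F.B, algebraMap (Zp p) Qb r = b v - b 0 := Iff.rfl

variable {F s v}

/-- The sign `±1` of `σ` on the coset `s + ⟨v⟩`. -/
def sgn (act : GQ → M → M) (s : M) (σ : GQ) : Qb := by
  classical exact if act σ s = s then 1 else -1

omit [AddCommGroup M] in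
theorem sgn_mul_self (σ : GQ) : sgn act s σ * sgn act s σ = 1 := by
  unfold sgn; split_ifs <;> ring

omit [AddCommGroup M] in
theorem sgn_ne_zero (σ : GQ) : sgn act s σ ≠ 0 := fun h => by
  have := sgn_mul_self (act := act) (s := s) σ
  rw [h, zero_mul] at this
  exact zero_ne_one this

/-- **The local lemma** (see the header). -/
theorem exists_unit_kummer (F : FunOrder p M act) (s v : M)
    (hv : ∀ σ, act σ v = v) (hv2 : v + v = 0) (hs : ∀ σ, act σ s = s ∨ act σ s = s + v) :
    ∃ w : Qb, (∃ u : (Zp p)ˣ, algebraMap (Zp p) Qb u = w ^ 2) ∧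
      ∀ σ : GQ, (act σ s = s → σ w = w) ∧ (act σ s ≠ s → σ w = -w) := by
  classical
  by_cases hall : ∀ σ, act σ s = s
  · exact ⟨1, ⟨1, by simp⟩, fun σ => ⟨fun _ => map_one σ, fun h => absurd (hall σ) h⟩⟩
  push Not at hall
  obtain ⟨σ₀, hσ₀⟩ := hall
  have hσ₀' : act σ₀ s = s + v := (hs σ₀).resolve_left hσ₀
  have hv0 : v ≠ 0 := by
    rintro rfl
    exact hσ₀ (by simpa using hσ₀')
  set am : Zp p →+* Qb := algebraMap (Zp p) Qb with ham
  have hinj : Function.Injective am := algebraMap_Zp_Qb_injective p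
  have h0fix : ∀ σ, act σ (0 : M) = 0 := F.act_zero
  -- differences are in `ℤ_(p)`
  have hdiff : ∀ b ∈ F.B, ∃ r : Zp p, am r = b v - b 0 := by
    intro b hb
    obtain ⟨r1, h1⟩ := exists_eq_apply_of_fixed F hb v hv
    obtain ⟨r0, h0⟩ := exists_eq_apply_of_fixed F hb 0 h0fix
    exact ⟨r1 - r0, by rw [map_sub]; exact congrArg₂ _ h1 h0⟩
  -- the generator `lam` of the difference ideal
  obtain ⟨lam, hlam⟩ := (IsPrincipalIdealRing.principal (diffIdeal F v)).principal
  have hlam_mem : lam ∈ diffIdeal F v := by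
    rw [hlam]; exact Submodule.mem_span_singleton_self lam
  obtain ⟨b₀, hb₀, hb₀lam⟩ := (mem_diffIdeal F v).1 hlam_mem
  have hdvd : ∀ b ∈ F.B, ∃ r : Zp p, am (r * lam) = b v - b 0 := by
    intro b hb
    obtain ⟨r, hr⟩ := hdiff b hb
    have hmem : r ∈ diffIdeal F v := ⟨b, hb, hr⟩
    rw [hlam] at hmem
    obtain ⟨a, ha⟩ := Submodule.mem_span_singleton.1 hmem
    exact ⟨a, by rw [← hr, ← ha, smul_eq_mul]⟩
  have hlam0 : am lam ≠ 0 := by
    intro h
    apply hv0
    symm
    refine F.separates 0 v fun b hb => ?_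
    obtain ⟨r, hr⟩ := hdvd b hb
    rw [map_mul, h, mul_zero] at hr
    exact (sub_eq_zero.1 hr.symm).symm
  -- (i) the coaction: `b (s + v) - b s ∈ lam • T`
  have hstep : ∀ b ∈ F.B, ∃ b' ∈ F.B, b (s + v) - b s = am lam * b' s := by
    intro b hb
    obtain ⟨ι, _, u, w, hu, hw, huw⟩ := F.comul_mem b hb
    choose r hr using fun i => hdvd (w i) (hw i)
    refine ⟨∑ i, r i • u i, sum_smul_mem F r u hu, ?_⟩
    have h1 : b s = ∑ i, u i s * w i 0 := by
      have := huw s 0
      rwa [add_zero] at this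
    rw [huw s v, h1, ← Finset.sum_sub_distrib, sum_smul_apply, Finset.mul_sum]
    refine Finset.sum_congr rfl fun i _ => ?_
    have := hr i
    rw [map_mul] at this
    rw [← mul_sub, ← this]; ring
  -- (ii) dividing: `1 = ∑ a i * c i`
  obtain ⟨ι, _, u, w, hu, hw, huw⟩ := F.comul_mem b₀ hb₀
  choose u' hu' hu'eq using fun i => hstep (u i) (hu i)
  have hq : ∀ i, (fun x => w i (-x)) ∈ F.B := fun i => F.neg_mem (w i) (hw i)
  have hone : ∑ i, u' i s * w i (-s) = 1 := by
    have h1 : b₀ 0 = ∑ i, u i s * w i (-s) := by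
      have := huw s (-s)
      rwa [add_neg_cancel] at this
    have h2 : b₀ v = ∑ i, u i (s + v) * w i (-s) := by
      have := huw (s + v) (-s)
      rwa [add_neg_cancel_comm] at this
    have h3 : am lam * ∑ i, u' i s * w i (-s) = am lam * 1 := by
      calc am lam * ∑ i, u' i s * w i (-s)
          = ∑ i, (u i (s + v) - u i s) * w i (-s) := by
            rw [Finset.mul_sum]
            refine Finset.sum_congr rfl fun i _ => ?_
            rw [hu'eq i]; ring
        _ = b₀ v - b₀ 0 := by
            rw [h1, h2, ← Finset.sum_sub_distrib]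
            refine Finset.sum_congr rfl fun i _ => ?_
            ring
        _ = am lam * 1 := by rw [mul_one]; exact hb₀lam.symm
    exact mul_left_cancel₀ hlam0 h3
  -- anti-invariance
  have hact_sv : ∀ σ, act σ s = s → act σ (s + v) = s + v := fun σ h => by
    rw [F.act_add, h, hv]
  have hact_sv' : ∀ σ, act σ s ≠ s → act σ s = s + v ∧ act σ (s + v) = s := fun σ h => by
    have h1 := (hs σ).resolve_left h
    refine ⟨h1, ?_⟩
    rw [F.act_add, h1, hv, add_assoc, hv2, add_zero]
  have hanti : ∀ b ∈ F.B, ∀ b' ∈ F.B, b (s + v) - b s = am lam * b' s →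
      ∀ σ, σ (b' s) = sgn act s σ * b' s := by
    intro b hb b' hb' h σ
    have h1 := congrArg σ h
    rw [map_sub, map_mul, ← F.equivariant b hb, ← F.equivariant b hb, ham, map_algebraMap_Zp,
      ← ham] at h1
    apply mul_left_cancel₀ hlam0
    rw [← h1]
    unfold sgn
    by_cases hσ : act σ s = s
    · rw [if_pos hσ, hact_sv σ hσ, hσ, h]; ring
    · rw [if_neg hσ, (hact_sv' σ hσ).1, (hact_sv' σ hσ).2]
      linear_combination (-1 : Qb) * h
  set a : ι → Qb := fun i => u' i s with ha
  set c : ι → Qb := fun i => w i (-s) with hc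
  have ha_anti : ∀ i σ, σ (a i) = sgn act s σ * a i := fun i σ =>
    hanti (u i) (hu i) (u' i) (hu' i) (hu'eq i) σ
  -- a nonzero `a i₀`
  obtain ⟨i₀, hi₀⟩ : ∃ i₀, a i₀ ≠ 0 := by
    by_contra hcon
    push Not at hcon
    have : ∑ i, u' i s * w i (-s) = 0 :=
      Finset.sum_eq_zero fun i _ => by
        have := hcon i
        simp only [ha] at this
        rw [this, zero_mul]
    rw [hone] at this
    exact one_ne_zero this
  -- the ratios are rational
  have hGal := isGalois_Qb
  have hratio : ∀ i, ∃ ρ : ℚ, algebraMap ℚ Qb ρ = a i / a i₀ := by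
    intro i
    refine (InfiniteGalois.mem_range_algebraMap_iff_fixed (k := ℚ) (K := Qb) _).mpr fun σ => ?_
    rw [map_div₀, ha_anti, ha_anti, mul_div_mul_left _ _ (sgn_ne_zero σ)]
  choose ρ hρ using hratio
  -- common denominator
  obtain ⟨d, hd⟩ := IsLocalization.exist_integer_multiples (nonZeroDivisors (Zp p))
    (Finset.univ : Finset ι) ρ
  have hd0 : am (d : Zp p) ≠ 0 := by
    rw [Ne, map_eq_zero_iff _ hinj]
    exact nonZeroDivisors.coe_ne_zero d
  have hn : ∀ i, ∃ n : Zp p, am n * a i₀ = am d * a i := by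
    intro i
    obtain ⟨n, hn⟩ := hd i (Finset.mem_univ i)
    refine ⟨n, ?_⟩
    have h1 := congrArg (algebraMap ℚ Qb) hn
    rw [← IsScalarTower.algebraMap_apply (Zp p) ℚ Qb, Algebra.smul_def, map_mul,
      ← IsScalarTower.algebraMap_apply (Zp p) ℚ Qb, hρ] at h1
    rw [ham, h1]
    field_simp
  choose n hn using hn
  -- Bezout
  obtain ⟨g, hg⟩ := (IsPrincipalIdealRing.principal (Ideal.span (Set.range n))).principal
  have hg_mem : g ∈ Ideal.span (Set.range n) := by
    rw [hg]; exact Submodule.mem_span_singleton_self g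
  obtain ⟨k, hk⟩ := (Ideal.mem_span_range_iff_exists_fun).1 hg_mem
  have hm : ∀ i, ∃ m : Zp p, m * g = n i := by
    intro i
    have : n i ∈ Ideal.span (Set.range n) := Ideal.subset_span ⟨i, rfl⟩
    rw [hg] at this
    obtain ⟨m, hm⟩ := Submodule.mem_span_singleton.1 this
    exact ⟨m, hm⟩
  choose m hm using hm
  -- the unit `wv`
  set P : M → Qb := ∑ i, k i • u' i with hP
  set Q : M → Qb := ∑ i, m i • (fun x => w i (-x)) with hQ
  have hPB : P ∈ F.B := sum_smul_mem F k u' hu'
  have hQB : Q ∈ F.B := sum_smul_mem F m _ hq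
  set wv : Qb := P s with hwv
  have hwv_eq : wv = ∑ i, am (k i) * a i := sum_smul_apply k u' s
  have hDw : am d * wv = am g * a i₀ := by
    rw [hwv_eq, Finset.mul_sum, ← hk, map_sum, Finset.sum_mul]
    refine Finset.sum_congr rfl fun i _ => ?_
    rw [map_mul, mul_assoc, hn i]; ring
  have hai : ∀ i, a i = am (m i) * wv := by
    intro i
    apply mul_left_cancel₀ hd0
    rw [← hn i, ← hm i, map_mul]
    calc am (m i) * am g * a i₀ = am (m i) * (am g * a i₀) := by ring
      _ = am (m i) * (am d * wv) := by rw [hDw]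
      _ = am d * (am (m i) * wv) := by ring
  have hwQ : wv * Q s = 1 := by
    rw [← hone, hQ, sum_smul_apply, Finset.mul_sum]
    refine Finset.sum_congr rfl fun i _ => ?_
    have := hai i
    simp only [ha] at this
    rw [this]; ring
  have hw_anti : ∀ σ, σ wv = sgn act s σ * wv := by
    intro σ
    rw [hwv_eq, map_sum, Finset.mul_sum]
    refine Finset.sum_congr rfl fun i _ => ?_
    rw [map_mul, ha_anti, ham, map_algebraMap_Zp]; ring
  have hQ_anti : ∀ σ, σ (Q s) = sgn act s σ * Q s := by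
    intro σ
    have h1 := congrArg σ hwQ
    rw [map_mul, map_one, hw_anti] at h1
    have hw0 : wv ≠ 0 := left_ne_zero_of_mul_eq_one hwQ
    apply mul_left_cancel₀ hw0
    apply mul_left_cancel₀ (sgn_ne_zero (act := act) (s := s) σ)
    calc sgn act s σ * (wv * σ (Q s)) = sgn act s σ * wv * σ (Q s) := by ring
      _ = 1 := h1
      _ = (sgn act s σ * sgn act s σ) * (wv * Q s) := by rw [sgn_mul_self, hwQ, one_mul]
      _ = sgn act s σ * (wv * (sgn act s σ * Q s)) := by ring
  -- squares are in `ℤ_(p)`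
  obtain ⟨r₁, hr₁⟩ : ∃ r : Zp p, am r = wv ^ 2 := by
    have hPP : P * P ∈ F.B := F.B.mul_mem hPB hPB
    have := mem_range_of_fixed_of_isIntegral p (wv ^ 2) (fun σ => by
      rw [map_pow, hw_anti, mul_pow, pow_two (sgn act s σ), sgn_mul_self, one_mul])
      (by
        have := isIntegral_apply F hPP s
        rwa [Pi.mul_apply, ← pow_two] at this)
    exact this
  obtain ⟨r₂, hr₂⟩ : ∃ r : Zp p, am r = Q s ^ 2 := by
    have hQQ : Q * Q ∈ F.B := F.B.mul_mem hQB hQB
    have := mem_range_of_fixed_of_isIntegral p (Q s ^ 2) (fun σ => by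
      rw [map_pow, hQ_anti, mul_pow, pow_two (sgn act s σ), sgn_mul_self, one_mul])
      (by
        have := isIntegral_apply F hQQ s
        rwa [Pi.mul_apply, ← pow_two] at this)
    exact this
  have hr12 : r₁ * r₂ = 1 := by
    apply hinj
    rw [map_mul, hr₁, hr₂, ← mul_pow, hwQ, one_pow, map_one]
  refine ⟨wv, ⟨Units.mkOfMulEqOne r₁ r₂ hr12, hr₁⟩, fun σ => ⟨fun h => ?_, fun h => ?_⟩⟩
  · rw [hw_anti]; unfold sgn; rw [if_pos h, one_mul]
  · rw [hw_anti]; unfold sgn; rw [if_neg h, neg_one_mul]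

end Main

end Fermat.Agent.MAZ.L2_86
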