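/-
Programme MAZ (S15), brick L2-a (helper86), consumer form: the local lemma of `Local.lean` for
`Flat44.HasFlatModel` (the existence clause of the Prelude's `IsFlatAt`).
-/
import Mathlib
import Fermat.Agent.Flat44.OfHopf
import Fermat.Agent.MAZ.L2_86.Local

set_option autoImplicit false

namespace Fermat.Agent.MAZ.L2_86

open Fermat.Agent.Flat44

/-- **Flat quadratic classes are unit Kummer classes.**  If the Galois module `(M, act)` has a finite
flat model over `ℤ_(p)` and `s v : M` are such that `v` is Galois-fixed, `v + v = 0` and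
`act σ s ∈ {s, s + v}`, then there is `w : ℚ̄` with `w ^ 2` a unit of `ℤ_(p)`, fixed by the `σ` fixing `s`
and negated by the others. -/
theorem exists_unit_kummer_of_hasFlatModel {p : ℕ} {M : Type} [AddCommGroup M] {act : GQ → M → M}
    (h : HasFlatModel p M act) (s v : M)
    (hv : ∀ σ, act σ v = v) (hv2 : v + v = 0) (hs : ∀ σ, act σ s = s ∨ act σ s = s + v) :
    ∃ w : Qb, (∃ u : (Zp p)ˣ, algebraMap (Zp p) Qb u = w ^ 2) ∧
      ∀ σ : GQ, (act σ s = s → σ w = w) ∧ (act σ s ≠ s → σ w = -w) := by
  obtain ⟨F⟩ := funOrder_of_hasFlatModel h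
  exact exists_unit_kummer F s v hv hv2 hs

end Fermat.Agent.MAZ.L2_86
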