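/-
Programme MAZ (S15), bricks L2-a + L2-b assembled (helper86): **the base case of the Selmer inequality at
`r = 2`** in module-theoretic form.

Let `(M, act)` be a Galois module with a finite flat model over `ℤ_(2)` (`Flat44.HasFlatModel 2`), and
`s v : M` with `v` Galois-fixed, `v + v = 0`, `act σ s ∈ {s, s + v}` (so `σ ↦ [act σ s ≠ s]` is a quadratic
character: think `M = E_c`, the extension module of `c ∈ H¹(ℚ, ℤ/2)`, `s` the section).  If `s` is fixed by
an inertia group at every odd prime and by complex conjugation, then `s` is fixed by all of `G_ℚ`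
(`c = 0`).  Hence `Sel2 (ℤ/2) = 0` for the Selmer structure of report 1031 (flat at `2`, unramified at all
odd primes, trivial at infinity).
-/
import Mathlib
import Fermat.Agent.MAZ.L2_86.LocalFlat
import Fermat.Agent.MAZ.L2_86.Global

set_option autoImplicit false

namespace Fermat.Agent.MAZ.L2_86

open Fermat.Agent.Flat44

/-- **Base case at `r = 2`** (see the header). -/
theorem act_eq_of_hasFlatModel_two {M : Type} [AddCommGroup M] {act : GQ → M → M}
    (h : HasFlatModel 2 M act) (s v : M)
    (hv : ∀ σ, act σ v = v) (hv2 : v + v = 0) (hs : ∀ σ, act σ s = s ∨ act σ s = s + v)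
    (hodd : ∀ l : ℕ, l.Prime → l ≠ 2 → ∃ A : ValuationSubring Qb, A.LiesOverPrime l ∧
      ∀ σ ∈ A.inertiaSubgroupIn ℚ, act σ s = s)
    (hreal : act complexConjugation s = s) (σ : GQ) : act σ s = s := by
  obtain ⟨w, ⟨u, hu⟩, hw⟩ := exists_unit_kummer_of_hasFlatModel h s v hv hv2 hs
  have hfix : ∀ g : GQ, g w = w :=
    apply_eq_of_sq_unit w u hu
      (fun l hl hl2 => by
        obtain ⟨A, hA, hAI⟩ := hodd l hl hl2
        exact ⟨A, hA, fun g hg => (hw g).1 (hAI g hg)⟩)
      ((hw _).1 hreal)
  by_contra hσ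
  have h1 := (hw σ).2 hσ
  rw [hfix σ] at h1
  have hw0 : w = 0 := by
    have : (2 : Qb) * w = 0 := by linear_combination h1
    rcases mul_eq_zero.1 this with h2 | h2
    · exact absurd h2 two_ne_zero
    · exact h2
  have hu0 : algebraMap (Zp 2) Qb u = 0 := by rw [hu, hw0]; ring
  have : (u : Zp 2) = 0 := (map_eq_zero_iff _ (algebraMap_Zp_Qb_injective 2)).1 hu0
  exact u.ne_zero this

end Fermat.Agent.MAZ.L2_86
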