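/-
Programme MAZ (S15), brick L2-c (helper86): **Selmer groups with TWO defect subgroups.**

Variant of helper42's `SelCoh42/Sel.lean` + `Final.lean` (untouched) in which the Selmer group is cut out by
a Selmer system `S` (functorial conditions with `pull`) and by restriction to TWO subgroups `I J ≤ Γ`:

  `Sel2 I J S V = cond V ⊓ ker (H¹(Γ,V) → H¹(I,V)) ⊓ ker (H¹(Γ,V) → H¹(J,V))`.

For `r = 2` take `I` = inertia at `p` and `J = ⟨complex conjugation⟩` (report 1031): then the only simple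
object `ℤ/2` has `Sel2 = 0`, so `Ψ(ℤ/2) = 1 * 2 * 2 / (2 * 2) = 1` and no étale/multiplicative distinction,
no ordinarity is needed.

* `sel2_step` : `|Sel2 V| * |V'^Γ| * |V''^Γ| * (|V^I| * |V^J|)
      ≤ |Sel2 V'| * |Sel2 V''| * |V^Γ| * (|V'^I| * |V'^J|) * (|V''^I| * |V''^J|)` (+ finiteness);
* `selCount2 : SelIneq5.Abstract.SelCount (SelObj2 S I J)` with `hI = |V^I| * |V^J|`;
* `sel2_ineq`, `sel2_le` : the inequality and the bound for objects built from simple pieces.

Mathlib + `MAZ/SelCoh42` + `MAZ/SelIneq5` only.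
-/
import Fermat.Agent.MAZ.SelCoh42.Final

set_option autoImplicit false

namespace Fermat.Agent.MAZ.L2_86

universe u v

open Fermat.Agent.MAZ.SelIneq5 Fermat.Agent.MAZ.SelCoh42

variable {Γ : Type v} [Group Γ] {𝒰 : LevelSets Γ} (I J : Subgroup Γ)

/-- The Selmer group with two defect subgroups. -/
def Sel2 (S : SelmerSystem.{u} 𝒰) (V : Type u) [AddCommGroup V] [DistribMulAction Γ V] :
    AddSubgroup (H1 𝒰 V) :=
  S.cond V ⊓ (H1res 𝒰 I).ker ⊓ (H1res 𝒰 J).ker

section Step

variable (S : SelmerSystem.{u} 𝒰)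
  {V' V V'' : Type u} [AddCommGroup V'] [DistribMulAction Γ V'] [AddCommGroup V]
  [DistribMulAction Γ V] [AddCommGroup V''] [DistribMulAction Γ V'']
  {i : V' →+[Γ] V} {π : V →+[Γ] V''}

theorem mem_Sel2 {x : H1 𝒰 V} :
    x ∈ Sel2 I J S V ↔ x ∈ S.cond V ∧ H1res 𝒰 I x = 0 ∧ H1res 𝒰 J x = 0 := by
  unfold Sel2
  rw [AddSubgroup.mem_inf, AddSubgroup.mem_inf, AddMonoidHom.mem_ker, AddMonoidHom.mem_ker, and_assoc]

theorem Sel2_le_Sel : Sel2 I J S V ≤ Sel I S V := fun _ hx =>
  ⟨((mem_Sel2 I J S).1 hx).1, ((mem_Sel2 I J S).1 hx).2.1⟩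

theorem H1map_mem_Sel2 (f : V →+[Γ] V') (hV : S.mem V) (hV' : S.mem V') {x : H1 𝒰 V}
    (hx : x ∈ Sel2 I J S V) : H1map 𝒰 f x ∈ Sel2 I J S V' := by
  obtain ⟨h1, h2, h3⟩ := (mem_Sel2 I J S).1 hx
  refine (mem_Sel2 I J S).2 ⟨S.push f hV hV' x h1, ?_, ?_⟩
  · rw [H1res_H1map, h2, map_zero]
  · rw [H1res_H1map, h3, map_zero]

/-- **The one-step inequality with two defect subgroups.** -/
theorem sel2_step [Finite V] [Finite V''] (h : ShortExact i π) (hsm : IsSmooth 𝒰 V)
    (hV' : S.mem V') (hV : S.mem V) (hV'' : S.mem V'')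
    [Finite (Sel2 I J S V')] [Finite (Sel2 I J S V'')] :
    Finite (Sel2 I J S V) ∧
      Nat.card (Sel2 I J S V) * Nat.card (Inv (⊤ : Subgroup Γ) V') * Nat.card (Inv (⊤ : Subgroup Γ) V'')
          * (Nat.card (Inv I V) * Nat.card (Inv J V))
        ≤ Nat.card (Sel2 I J S V') * Nat.card (Sel2 I J S V'') * Nat.card (Inv (⊤ : Subgroup Γ) V)
          * (Nat.card (Inv I V') * Nat.card (Inv J V'))
          * (Nat.card (Inv I V'') * Nat.card (Inv J V'')) := by
  have := finite_defect I (V := V) h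
  have := finite_defect J (V := V) h
  -- the combined restriction and the combined defect group
  let ρ : H1 𝒰 V' →+ H1 (LevelSets.discrete I) V' × H1 (LevelSets.discrete J) V' :=
    (H1res 𝒰 I).prod (H1res 𝒰 J)
  let T : AddSubgroup (H1 (LevelSets.discrete I) V' × H1 (LevelSets.discrete J) V') :=
    (defect I i).prod (defect J i)
  have hTfin : Finite T := Finite.of_equiv _ (AddSubgroup.prodEquiv (defect I i) (defect J i)).symm.toEquiv
  have hTcard : Nat.card T = Nat.card (defect I i) * Nat.card (defect J i) := by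
    rw [Nat.card_congr (AddSubgroup.prodEquiv (defect I i) (defect J i)).toEquiv, Nat.card_prod]
  have hπ : ∀ x ∈ Sel2 I J S V, H1map 𝒰 π x ∈ Sel2 I J S V'' := fun x hx =>
    H1map_mem_Sel2 I J S π hV hV'' hx
  have hiπ : (H1map 𝒰 π).ker = (H1map 𝒰 i).range := by
    ext x
    rw [AddMonoidHom.mem_ker, AddMonoidHom.mem_range]
    constructor
    · intro hx
      exact exists_of_H1map_eq_zero 𝒰 h hsm x hx
    · rintro ⟨y, rfl⟩
      exact H1map_comp_eq_zero 𝒰 h y
  have hker : ∀ x : H1 𝒰 V', H1map 𝒰 i x ∈ Sel2 I J S V → ρ x = 0 → x ∈ Sel2 I J S V' := by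
    intro x hx hx0
    have h1 : H1res 𝒰 I x = 0 := congrArg Prod.fst hx0
    have h2 : H1res 𝒰 J x = 0 := congrArg Prod.snd hx0
    exact (mem_Sel2 I J S).2 ⟨S.pull i h.inj hV' hV x ((mem_Sel2 I J S).1 hx).1, h1, h2⟩
  have hT : ∀ x : H1 𝒰 V', H1map 𝒰 i x ∈ Sel2 I J S V → ρ x ∈ T := by
    intro x hx
    obtain ⟨_, h2, h3⟩ := (mem_Sel2 I J S).1 hx
    refine AddSubgroup.mem_prod.2 ⟨?_, ?_⟩
    · show H1map (LevelSets.discrete I) (resHom I i) (H1res 𝒰 I x) = 0
      rw [← H1res_H1map]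
      exact h2
    · show H1map (LevelSets.discrete J) (resHom J i) (H1res 𝒰 J x) = 0
      rw [← H1res_H1map]
      exact h3
  refine ⟨Count.finite_of_exact_of_defect (H1map 𝒰 i) (H1map 𝒰 π) hiπ (Sel2 I J S V')
    (Sel2 I J S V) (Sel2 I J S V'') hπ ρ T hker hT, ?_⟩
  have hcount := Count.card_mul_le_of_exact_of_defect
    (invMap ⊤ i) (invMap ⊤ π) (delta 𝒰 h hsm) (H1map 𝒰 i) (H1map 𝒰 π)
    (invMap_injective ⊤ h)
    (by
      ext x
      rw [AddMonoidHom.mem_ker, invMap_eq_zero_iff ⊤ h, AddMonoidHom.mem_range])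
    (by
      ext a
      rw [AddMonoidHom.mem_ker, delta_eq_zero_iff, AddMonoidHom.mem_range])
    (by
      ext y
      rw [AddMonoidHom.mem_ker, AddMonoidHom.mem_range]
      constructor
      · intro hy
        exact exists_delta_eq 𝒰 h hsm y hy
      · rintro ⟨a, rfl⟩
        exact H1map_delta 𝒰 h hsm a)
    hiπ (Sel2 I J S V') (Sel2 I J S V) (Sel2 I J S V'') hπ ρ T hker hT
  have hdI := card_defect_mul I (V := V) h
  have hdJ := card_defect_mul J (V := V) h
  have hdefect : Nat.card T * (Nat.card (Inv I V) * Nat.card (Inv J V)) =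
      (Nat.card (Inv I V') * Nat.card (Inv J V')) * (Nat.card (Inv I V'') * Nat.card (Inv J V'')) := by
    rw [hTcard]
    calc Nat.card (defect I i) * Nat.card (defect J i) * (Nat.card (Inv I V) * Nat.card (Inv J V))
        = (Nat.card (defect I i) * Nat.card (Inv I V)) *
            (Nat.card (defect J i) * Nat.card (Inv J V)) := by ring
      _ = (Nat.card (Inv I V') * Nat.card (Inv I V'')) *
            (Nat.card (Inv J V') * Nat.card (Inv J V'')) := by rw [hdI, hdJ]
      _ = _ := by ring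
  have hpos : 0 < Nat.card T := Nat.card_pos
  exact Abstract.step_of_defect hpos hcount hdefect

end Step

/-! ### The abstract Selmer count -/

variable (S : SelmerSystem.{u} 𝒰)

/-- Bundled finite smooth modules of the class with finite `Sel2`. -/
structure SelObj2 where
  /-- the underlying module -/
  V : Type u
  [acg : AddCommGroup V]
  [act : DistribMulAction Γ V]
  [fin : Finite V]
  smooth : IsSmooth 𝒰 V
  mem : S.mem V
  finSel : Finite (Sel2 I J S V)

attribute [instance] SelObj2.acg SelObj2.act SelObj2.fin SelObj2.finSel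

/-- The numerical Selmer data with `hI = |V^I| * |V^J|`. -/
noncomputable def selCount2 : Abstract.SelCount (SelObj2 I J S) where
  card G := Nat.card G.V
  h0 G := Nat.card (Inv (⊤ : Subgroup Γ) G.V)
  hI G := Nat.card (Inv I G.V) * Nat.card (Inv J G.V)
  hS G := Nat.card (Sel2 I J S G.V)
  Ext G' G G'' := ∃ (i : G'.V →+[Γ] G.V) (π : G.V →+[Γ] G''.V), ShortExact i π
  card_pos _ := Nat.card_pos
  h0_pos _ := Nat.card_pos
  hI_pos _ := Nat.mul_pos Nat.card_pos Nat.card_pos
  card_ext := by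
    rintro G' G G'' ⟨i, π, h⟩
    exact card_eq_mul_of_shortExact h
  step := by
    rintro G' G G'' ⟨i, π, h⟩
    exact (sel2_step I J S h G.smooth G'.mem G.mem G''.mem).2

variable {I J S}

/-- The middle term of a short exact sequence of objects is an object. -/
def SelObj2.ofExact (G' G'' : SelObj2 I J S) (V : Type u) [AddCommGroup V] [DistribMulAction Γ V]
    [Finite V] (hsm : IsSmooth 𝒰 V) (hmem : S.mem V) (i : G'.V →+[Γ] V) (π : V →+[Γ] G''.V)
    (h : ShortExact i π) : SelObj2 I J S where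
  V := V
  smooth := hsm
  mem := hmem
  finSel := (sel2_step I J S h hsm G'.mem hmem G''.mem).1

/-- **(INEQ) with two defect subgroups**: `|Sel2 V| * r ^ a * (|V^I| * |V^J|) ≤ |V^Γ| * |V|` for an
object built from pieces of kind `triv` (`a` of them) and `cyc`, given the base cases.  (For `r = 2` all
simple pieces are of kind `cyc`, `a = 0`.) -/
theorem sel2_ineq (r : ℕ) {triv cyc : SelObj2 I J S → Prop}
    (htriv : ∀ G, triv G → Nat.card (Sel2 I J S G.V) * r * (Nat.card (Inv I G.V) * Nat.card (Inv J G.V))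
      ≤ Nat.card (Inv (⊤ : Subgroup Γ) G.V) * Nat.card G.V)
    (hcyc : ∀ G, cyc G → Nat.card (Sel2 I J S G.V) * (Nat.card (Inv I G.V) * Nat.card (Inv J G.V))
      ≤ Nat.card (Inv (⊤ : Subgroup Γ) G.V) * Nat.card G.V)
    {a : ℕ} {G : SelObj2 I J S} (hG : Abstract.Built (selCount2 I J S) triv cyc a G) :
    Nat.card (Sel2 I J S G.V) * r ^ a * (Nat.card (Inv I G.V) * Nat.card (Inv J G.V))
      ≤ Nat.card (Inv (⊤ : Subgroup Γ) G.V) * Nat.card G.V :=
  Abstract.ineq (selCount2 I J S) r htriv hcyc hG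

/-- **The Selmer bound**: `|V| = r^ℓ`, `|V^I| * |V^J| ≥ r^i`, `ℓ ≤ a + i + c` give
`|Sel2 V| ≤ |V^Γ| * r^c`. -/
theorem sel2_le (r : ℕ) (hr : 0 < r) {triv cyc : SelObj2 I J S → Prop}
    (htriv : ∀ G, triv G → Nat.card (Sel2 I J S G.V) * r * (Nat.card (Inv I G.V) * Nat.card (Inv J G.V))
      ≤ Nat.card (Inv (⊤ : Subgroup Γ) G.V) * Nat.card G.V)
    (hcyc : ∀ G, cyc G → Nat.card (Sel2 I J S G.V) * (Nat.card (Inv I G.V) * Nat.card (Inv J G.V))
      ≤ Nat.card (Inv (⊤ : Subgroup Γ) G.V) * Nat.card G.V)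
    {a : ℕ} {G : SelObj2 I J S} (hG : Abstract.Built (selCount2 I J S) triv cyc a G) {ℓ i c : ℕ}
    (hcard : Nat.card G.V = r ^ ℓ)
    (hI : r ^ i ≤ Nat.card (Inv I G.V) * Nat.card (Inv J G.V)) (hℓ : ℓ ≤ a + i + c) :
    Nat.card (Sel2 I J S G.V) ≤ Nat.card (Inv (⊤ : Subgroup Γ) G.V) * r ^ c :=
  Abstract.hS_le (selCount2 I J S) r hr htriv hcyc hG hcard hI hℓ

/-- The base case at `r = 2` in numerical form: a module of order `2` with trivial action and `Sel2 = 0`
satisfies the `cyc` bound (with equality: `1 * (2 * 2) ≤ 2 * 2`). -/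
theorem base_case_two (G : SelObj2 I J S) (hcard : Nat.card G.V = 2)
    (htriv : ∀ (g : Γ) (x : G.V), g • x = x) (hSel : ∀ x ∈ Sel2 I J S G.V, x = 0) :
    Nat.card (Sel2 I J S G.V) * (Nat.card (Inv I G.V) * Nat.card (Inv J G.V))
      ≤ Nat.card (Inv (⊤ : Subgroup Γ) G.V) * Nat.card G.V := by
  have hS : Nat.card (Sel2 I J S G.V) = 1 := by
    have : Subsingleton (Sel2 I J S G.V) :=
      ⟨fun x y => Subtype.ext ((hSel x.1 x.2).trans (hSel y.1 y.2).symm)⟩
    exact Nat.card_unique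
  have hInv : ∀ K : Subgroup Γ, Nat.card (Inv K G.V) = 2 := by
    intro K
    have : Inv K G.V = ⊤ := by
      ext x
      simp only [mem_Inv, AddSubgroup.mem_top, iff_true]
      exact fun s _ => htriv s x
    rw [this, ← hcard]
    exact Nat.card_congr AddSubgroup.topEquiv.toEquiv
  rw [hS, hInv I, hInv J, hInv ⊤, hcard]

end Fermat.Agent.MAZ.L2_86
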